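/-
P-CFT (helper76, architect): definition-independent interface statements.

* `PermInductionStatement` ([F3], pure representation theory): a class of finite-dimensional
  `𝔽_p`-representations of `G`, trivial on a normal subgroup `N` of finite index, which is closed
  under isomorphisms, extensions and retracts and contains the permutation modules `𝔽_p[G/U]`
  (`U/N` a Sylow `p`-subgroup of `G/N`), contains everything.
* `ArchimedeanVanishingStatement` ([B-INF]): for `p` odd the cohomology of the archimedean
  decomposition group (order `2`) with coefficients in an `𝔽_p`-module vanishes in degrees `1`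
  and `2` (prelude shapes), so the conditions at `∞` in `sha₁` / `sha₂` are automatic.
-/
import Fermat.Prelude.Def_GroupCohomology_ContinuousUnramified

set_option autoImplicit false

open CategoryTheory

namespace Fermat.Agent.H76.Cft

/-- The absolute Galois group of `ℚ`. -/
abbrev GQ : Type := AlgebraicClosure ℚ ≃ₐ[ℚ] AlgebraicClosure ℚ

/-- `M` is finite-dimensional and the normal subgroup `N` acts trivially on it. -/
def IsGoodRep {p : ℕ} {G : Type} [Group G] (N : Subgroup G) (M : Rep (ZMod p) G) : Prop :=
  Module.Finite (ZMod p) M ∧ ∀ n ∈ N, M.ρ n = 1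

/-- **[F3] Permutation-module induction principle.** -/
def PermInductionStatement : Prop :=
  ∀ (p : ℕ) [Fact p.Prime] (G : Type) [Group G] (N : Subgroup G) [N.Normal] [N.FiniteIndex]
    (C : Rep (ZMod p) G → Prop),
    -- closed under isomorphisms
    (∀ M M' : Rep (ZMod p) G, Nonempty (M ≅ M') → C M → C M') →
    -- closed under extensions (of good modules)
    (∀ X : ShortComplex (Rep (ZMod p) G), X.ShortExact → IsGoodRep N X.X₂ →
      C X.X₁ → C X.X₃ → C X.X₂) →
    -- closed under retracts (of good modules)
    (∀ (M M' : Rep (ZMod p) G) (i : M ⟶ M') (r : M' ⟶ M), i ≫ r = 𝟙 M → IsGoodRep N M' →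
      C M' → C M) →
    -- contains the permutation modules on `G/U`, `U/N` a Sylow `p`-subgroup of `G/N`
    (∀ U : Subgroup G, N ≤ U → Nat.Coprime p U.index → (∃ n : ℕ, (N.subgroupOf U).index = p ^ n) →
      C (Rep.ofMulAction (ZMod p) G (G ⧸ U))) →
    ∀ M : Rep (ZMod p) G, IsGoodRep N M → C M

/-- **[B-INF] Archimedean vanishing** (prelude shapes). -/
def ArchimedeanVanishingStatement : Prop :=
  ∀ (p : ℕ) [Fact p.Prime], p ≠ 2 → ∀ (M : Rep (ZMod p) GQ),
    Subsingleton (groupCohomology.H1 (Rep.res ExtCitation.archimedeanLoc M)) ∧
    Subsingleton (groupCohomology.continuousH2 ExtCitation.archimedeanLoc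
      (Rep.res ExtCitation.archimedeanLoc M))

end Fermat.Agent.H76.Cft
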