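/-
P-CFT (helper76): number-theoretic objects inside `ℚ̄` for the global side.

* `QS S`   : the maximal extension of `ℚ` unramified outside `S` (compositum of the finite
             extensions `F` with `F.IsUnramifiedOutside S`, prelude notion);
* `ES S`   : the group of `S`-units of `QS S` (units at every place of `ℚ̄` not lying over `S`),
             a `G_ℚ`-stable subgroup of `ℚ̄ˣ`;
* `KummerDivisibleStatement` : `ES S` is `p`-divisible and closed under `p`-th roots when
  `p ∈ S` (so `1 → μ_p → E_S → E_S → 1` is exact).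
-/
import Fermat.Agent.H76.Cft.Interfaces

set_option autoImplicit false

noncomputable section

namespace Fermat.Agent.H76.Cft

/-- The maximal extension of `ℚ` inside `ℚ̄` unramified outside `S`. -/
def QS (S : Finset Nat.Primes) : IntermediateField ℚ (AlgebraicClosure ℚ) :=
  ⨆ F : {F : IntermediateField ℚ (AlgebraicClosure ℚ) // F.IsUnramifiedOutside S}, F.1

/-- `A` is a place of `ℚ̄` over a prime not in `S`. -/
def IsPlaceOutside (S : Finset Nat.Primes) (A : ValuationSubring (AlgebraicClosure ℚ)) : Prop :=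
  ∃ q : Nat.Primes, q ∉ S ∧ A.LiesOverPrime (q : ℕ)

/-- The `S`-units of `QS S`: elements of `QS S` which are units at every place of `ℚ̄` over a
prime outside `S`. -/
def ES (S : Finset Nat.Primes) : Subgroup (AlgebraicClosure ℚ)ˣ where
  carrier := {x | (x : AlgebraicClosure ℚ) ∈ QS S ∧
    ∀ A : ValuationSubring (AlgebraicClosure ℚ), IsPlaceOutside S A →
      (x : AlgebraicClosure ℚ) ∈ A ∧ ((x⁻¹ : (AlgebraicClosure ℚ)ˣ) : AlgebraicClosure ℚ) ∈ A}
  one_mem' := ⟨by simp, fun A _ => by simp⟩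
  mul_mem' := by
    rintro x y ⟨hx, hx'⟩ ⟨hy, hy'⟩
    refine ⟨by simpa using (QS S).mul_mem hx hy, fun A hA => ⟨?_, ?_⟩⟩
    · simpa using A.mul_mem _ _ (hx' A hA).1 (hy' A hA).1
    · rw [mul_inv_rev]
      simpa using A.mul_mem _ _ (hy' A hA).2 (hx' A hA).2
  inv_mem' := by
    rintro x ⟨hx, hx'⟩
    refine ⟨?_, fun A hA => ⟨(hx' A hA).2, by simpa using (hx' A hA).1⟩⟩
    have := (QS S).inv_mem hx
    simpa using this

/-- **[A1]** For `p ∈ S`: every `p`-th root in `ℚ̄` of an `S`-unit of `QS S` is again an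
`S`-unit of `QS S`.  (Kummer extensions by `S`-units are unramified outside `S ∋ p`.) -/
def KummerDivisibleStatement : Prop :=
  ∀ (p : ℕ) [Fact p.Prime] (S : Finset Nat.Primes), ExtCitation.pPrime p ∈ S →
    ∀ x y : (AlgebraicClosure ℚ)ˣ, y ^ p = x → x ∈ ES S → y ∈ ES S

/-- **[A1']** `ES S` is stable under `G_ℚ`. -/
def ESStableStatement : Prop :=
  ∀ (S : Finset Nat.Primes) (g : GQ) (x : (AlgebraicClosure ℚ)ˣ), x ∈ ES S →
    Units.map (g : AlgebraicClosure ℚ →* AlgebraicClosure ℚ) x ∈ ES S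

end Fermat.Agent.H76.Cft

end
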