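/-
P-CFT (helper76): the BRAUER-S block, interfaces (elementary cocycle currency of
`Fermat.Agent.H54.Cft.N6Interfaces`: `GalL L`, `galU`, `IsSLvl₁/₂`, `IsLocTrivAt`, `ES S`).

Purpose: produce `S`-level `μ_p`-valued 2-cocycles of `G_K` from cyclic algebras `(χ, u)`,
`u ∈ Kˣ` a local norm outside `S` (`BrauerSLiftStatement`), and prove `GO2ElemStatement`
(injectivity of `H²(G_S, E_S)[p] → Br(K)`) from the Hasse principle.  Everything is done with
explicit cochains; the only number theory is the finiteness of the class group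
(`NormEltStatement`, `CobEltStatement`) and Kummer theory outside `S` (`KummerRootQSStatement`).
-/
import Fermat.Agent.H54.Cft.N6Interfaces

set_option autoImplicit false

open Fermat.Agent.H54.Cft

namespace Fermat.Agent.H76.Cft

/-- `x` is a unit at the place `A` of `ℚ̄`. -/
def IsUnitAt (A : ValuationSubring Qbar) (x : Qbarˣ) : Prop :=
  (x : Qbar) ∈ A ∧ ((x⁻¹ : Qbarˣ) : Qbar) ∈ A

/-- `x` is a unit at every place of `ℚ̄` over a prime outside `S`. -/
def IsUnitOutside (S : Finset Nat.Primes) (x : Qbarˣ) : Prop :=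
  ∀ A : ValuationSubring Qbar, IsPlaceOutside S A → IsUnitAt A x

/-- At every place outside `S` the value of `x` is the `n`-th power of the value of an element
of `F` ("`n ∣ ord_A x` in the value group of `F`"). -/
def IsPowValOutside (S : Finset Nat.Primes) (F : IntermediateField ℚ Qbar) (n : ℕ)
    (x : Qbarˣ) : Prop :=
  ∀ A : ValuationSubring Qbar, IsPlaceOutside S A →
    ∃ z : Qbarˣ, (z : Qbar) ∈ F ∧ IsUnitAt A (x / z ^ n)

/-- The standard 2-cochain of the cyclic algebra `(χ, u)`: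
`(g, h) ↦ u ^ ⌊(χ g + χ h) / p⌋` (representatives in `[0, p)`). -/
noncomputable def stdCochain {G : Type} {p : ℕ} (χ : G → ZMod p) (u : Qbarˣ) : G × G → Qbarˣ :=
  fun gh => u ^ (((χ gh.1).val + (χ gh.2).val) / p)

/-- The `σ`-norm `∏_{k < p} s^k z` (`s` a lift of a generator of the cyclic group of order `p`). -/
noncomputable def sNorm (p : ℕ) (s : GQ) (z : Qbarˣ) : Qbarˣ :=
  ∏ k ∈ Finset.range p, galU (s ^ k) z

/-- **[B1] (Kummer roots stay in `ℚ_S`)**: for `p ∈ S`, a `p^a`-th root of an element of `ℚ_S`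
whose values outside `S` are `p^a`-th powers of values of `ℚ_S` lies in `ℚ_S`.
(Generalises `KummerDivisibleStatement`; same proof.) -/
def KummerRootQSStatement : Prop :=
  ∀ (p : ℕ) [Fact p.Prime] (S : Finset Nat.Primes), ExtCitation.pPrime p ∈ S →
    ∀ (a : ℕ) (x y : Qbarˣ), y ^ (p ^ a) = x → (x : Qbar) ∈ QS S →
      IsPowValOutside S (QS S) (p ^ a) x → (y : Qbar) ∈ QS S

/-- **[B4] (algebra core of the Brauer-S lift; pure algebra, Mathlib only)**.
`G` acts on the abelian group `A`, `E ≤ A` is a `G`-stable `p`-divisible subgroup, `χ : G → ℤ/p`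
a character, `s ∈ G` with `χ s = 1`, `u ∈ A^G`, and `α ∈ A` satisfies
(1) `n α / α ∈ E` for `χ n = 0` and (2) `u / ∏_{k<p} s^k α ∈ E`.
Then the standard cocycle `(g, h) ↦ u ^ ⌊(χ g + χ h)/p⌋` is, up to the coboundary of an explicit
1-cochain `b`, killed by `p`.  `b` is right-invariant under every subgroup killing `χ` and
fixing the `s^k α`, and takes values in every `G`-stable subgroup containing `E` and `α`. -/
def BsAlgStatement : Prop :=
  ∀ (G A : Type) [Group G] [CommGroup A] (act : G → A →* A),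
    (∀ a, act 1 a = a) → (∀ g h a, act (g * h) a = act g (act h a)) →
    ∀ (E : Subgroup A), (∀ g, ∀ x ∈ E, act g x ∈ E) →
    ∀ (p : ℕ) [Fact p.Prime], (∀ x ∈ E, ∃ y ∈ E, y ^ p = x) →
    ∀ (χ : G → ZMod p), (∀ g h, χ (g * h) = χ g + χ h) →
    ∀ (s : G), χ s = 1 →
    ∀ (u α : A), (∀ g, act g u = u) →
      (∀ n, χ n = 0 → act n α / α ∈ E) →
      u / (∏ k ∈ Finset.range p, act (s ^ k) α) ∈ E →
      ∃ b : G → A,
        (∀ N : Subgroup G, (∀ n ∈ N, χ n = 0) →
          (∀ n ∈ N, ∀ k : ℕ, act n (act (s ^ k) α) = act (s ^ k) α) →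
          ∀ g, ∀ n ∈ N, b (g * n) = b g) ∧
        (∀ A₀ : Subgroup A, E ≤ A₀ → α ∈ A₀ → (∀ g, ∀ x ∈ A₀, act g x ∈ A₀) →
          ∀ g, b g ∈ A₀) ∧
        ∀ g h, (u ^ (((χ g).val + (χ h).val) / p) / (act g (b h) * b g / b (g * h))) ^ p = 1

/-- **[B2] (norm elements; class group)**: `K ≤ ℚ̄` a number field unramified outside `S`,
`χ` an `S`-level character of `G_K` with `χ s = 1` (`L` = fixed field of `ker χ`), `u ∈ Kˣ`
whose value at every place outside `S` is the value of a norm from `L`.  Then there are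
`m ≡ 1 mod p`, `a` and `β ∈ Lˣ` with all values of `β` outside `S` divisible by `p^a` and
`N_{L/K} β = u ^ (m p^a)` up to units outside `S`.
(Proof: the ideal `𝔄` of `L` with `N 𝔄 = (u)` outside `S`; `𝔄 ^ h = (β₀)`, `h = h' p^a` the class
number, `m = h' ^ (p-1)`, `β = β₀ ^ (h' ^ (p-2))`.) -/
def NormEltStatement : Prop :=
  ∀ (p : ℕ) [Fact p.Prime] (S : Finset Nat.Primes), ExtCitation.pPrime p ∈ S →
    ∀ (K : IntermediateField ℚ Qbar), K.IsUnramifiedOutside S →
    ∀ (χ : GQ → ZMod p), IsLevelCharS S K χ → ∀ s ∈ K.fixingSubgroup, χ s = 1 →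
    ∀ u : Qbarˣ, (u : Qbar) ∈ K →
      (∀ A : ValuationSubring Qbar, IsPlaceOutside S A →
        ∃ z : Qbarˣ, (∀ n ∈ K.fixingSubgroup, χ n = 0 → galU n z = z) ∧
          IsUnitAt A (u / sNorm p s z)) →
      ∃ (a m : ℕ) (β : Qbarˣ), m % p = 1 ∧
        (∀ n ∈ K.fixingSubgroup, χ n = 0 → galU n β = β) ∧
        IsPowValOutside S (QS S) (p ^ a) β ∧
        IsUnitOutside S (u ^ (m * p ^ a) / sNorm p s β)

/-- **[B3] (splitting an ideal-valued 1-cocycle; class group)**: `K ≤ ℚ̄` a number field,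
`b` an `S`-level 1-cochain of `G_K` with values in `ℚ_Sˣ` whose coboundary is a unit outside `S`.
Then there are `m ≡ 1 mod p`, `a` and `β ∈ ℚ_Sˣ` with all values of `β` outside `S` divisible by
`p^a` and `b g ^ (m p^a) = g β / β` up to units outside `S`.
(Proof: the ideals `(b g)` of a finite Galois `F/K` form a 1-cocycle in the permutation module of
the primes of `F` outside `S`, hence `(b g) = g 𝔇 / 𝔇`; then the class group as in [B2].) -/
def CobEltStatement : Prop :=
  ∀ (p : ℕ) [Fact p.Prime] (S : Finset Nat.Primes), ExtCitation.pPrime p ∈ S →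
    ∀ (K : IntermediateField ℚ Qbar), K.IsUnramifiedOutside S →
    ∀ b : GalL K → Qbarˣ, IsSLvl₁ S K b → (∀ g, ((b g : Qbarˣ) : Qbar) ∈ QS S) →
      (∀ g h : GalL K, IsUnitOutside S (galU (g : GQ) (b h) * b g / b (g * h))) →
      ∃ (a m : ℕ) (β : Qbarˣ), m % p = 1 ∧ (β : Qbar) ∈ QS S ∧
        IsPowValOutside S (QS S) (p ^ a) β ∧
        ∀ g : GalL K, IsUnitOutside S (b g ^ (m * p ^ a) * β / galU (g : GQ) β)

/-- `b` is a level function on `G_K` (all levels). -/
def IsLvlAll₁ (K : IntermediateField ℚ Qbar) {X : Type} (b : GalL K → X) : Prop :=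
  ∃ F : IntermediateField ℚ Qbar, FiniteDimensional ℚ F ∧
    ∀ g n : GalL K, (n : GQ) ∈ F.fixingSubgroup → b (g * n) = b g

/-- **[B5] (Brauer-S lift)**: in the situation of [B2] with `ζ_p ∈ K`, the class of the cyclic
algebra `(χ, u)` in `Br(K)` is the image of an `S`-level `μ_p`-valued 2-cocycle `x` of `G_K`:
`ζ ^ x = std(χ, u) / d b` for a level 1-cochain `b` with values in `ℚ̄ˣ`. -/
def BrauerSLiftStatement : Prop :=
  ∀ (p : ℕ) [Fact p.Prime], p ≠ 2 → ∀ (S : Finset Nat.Primes), ExtCitation.pPrime p ∈ S →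
    ∀ (K : IntermediateField ℚ Qbar), K.IsUnramifiedOutside S →
    ∀ (ζ : Qbarˣ), IsPrimitiveRoot (ζ : Qbar) p → (ζ : Qbar) ∈ K →
    ∀ (χ : GQ → ZMod p), IsLevelCharS S K χ → ∀ s ∈ K.fixingSubgroup, χ s = 1 →
    ∀ u : Qbarˣ, (u : Qbar) ∈ K →
      (∀ A : ValuationSubring Qbar, IsPlaceOutside S A →
        ∃ z : Qbarˣ, (∀ n ∈ K.fixingSubgroup, χ n = 0 → galU n z = z) ∧
          IsUnitAt A (u / sNorm p s z)) →
      ∃ (x : GalL K × GalL K → ZMod p) (b : GalL K → Qbarˣ),
        IsCocycle₂ x ∧ IsSLvl₂ S K x ∧ IsLvlAll₁ K b ∧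
        ∀ g h : GalL K, ζ ^ (x (g, h)).val =
          stdCochain (fun g : GalL K => χ (g : GQ)) u (g, h) /
            (galU (g : GQ) (b h) * b g / b (g * h))

/-- **[UNR-TRIV]**: an `S`-level `ℤ/p`-valued 2-cocycle of `G_K` (trivial action) is locally
trivial at every place outside `S` (it factors through the unramified quotient of the
decomposition group, and inflation `ℤ/f → ℤ/fp` kills `H²(ℤ/f, ℤ/p)`). -/
def UnramTrivStatement : Prop :=
  ∀ (p : ℕ) [Fact p.Prime] (S : Finset Nat.Primes) (K : IntermediateField ℚ Qbar),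
    FiniteDimensional ℚ K →
    ∀ x : GalL K × GalL K → ZMod p, IsCocycle₂ x → IsSLvl₂ S K x →
      ∀ A : ValuationSubring Qbar, IsPlaceOutside S A → IsLocTrivAt K A x

end Fermat.Agent.H76.Cft
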