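/-
P-CFT (helper76): the realisation target [GA'] in elementary currency
(`Fermat.Agent.H54.Cft.N6Interfaces`): the cofinal cyclotomic layer `CofLayerStatement` and the
pair classes `PairRealCofStatement`.

Consumer (frame, helper13): for `N = G_K`, `K` from the cofinal family, the image `A(P_N)` of
`⨁_{w ∣ p} H²(K_w, μ_p)` in `H³_c` has dimension `≤ 1`, i.e. the `p`-components of the global
classes which are locally trivial at the places over `S \ {p}` span a subspace of codimension
`≤ 1` of `⨁_{w ∣ p} H²(K_w, μ_p)` (linear algebra on the pair classes: if for every pair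
`w ≠ w'` over `p` there is a class supported in `{w, w'}` among ALL places over `S` and not zero
at both, then the span has codimension `≤ 1`).
-/
import Fermat.Agent.H76.Cft.BrauerSInterfaces

set_option autoImplicit false

open Fermat.Agent.H54.Cft
open scoped Pointwise

namespace Fermat.Agent.H76.Cft

/-- The places `A`, `A'` of `ℚ̄` lie over the same prime of `K`. -/
def SamePlaceOver (K : IntermediateField ℚ Qbar) (A A' : ValuationSubring Qbar) : Prop :=
  ∃ g : GQ, g ∈ K.fixingSubgroup ∧ g • A = A'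

/-- **[COF] (cofinal cyclotomic layer)**: every finite `K₀ ≤ ℚ_S` is contained in a finite
`K ≤ ℚ_S`, stable under `G_ℚ`, containing `μ_p`, which carries an `S`-level character `χ` of
`G_K` of order `p` such that no place of `K` over `p` splits in the fixed field of `ker χ`:
every decomposition group at a place over `p` contains an element of `G_K` with `χ ≠ 0`.
(`K = K₀'(ζ_{p^n})`, `χ` the Kummer character of `ζ_{p^(n+1)}`, `n` maximal with `ζ_{p^n}` in the
local field of `K` at `p`; `p` is totally ramified in `ℚ(ζ_{p^m})`.) -/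
def CofLayerStatement : Prop :=
  ∀ (p : ℕ) [Fact p.Prime], p ≠ 2 → ∀ (S : Finset Nat.Primes), ExtCitation.pPrime p ∈ S →
    ∀ K₀ : IntermediateField ℚ Qbar, K₀.IsUnramifiedOutside S →
    ∃ (K : IntermediateField ℚ Qbar) (χ : GQ → ZMod p), K₀ ≤ K ∧ K.IsUnramifiedOutside S ∧
      (∀ (g : GQ) (x : Qbar), x ∈ K → g x ∈ K) ∧
      (∀ ω : Qbar, ω ^ p = 1 → ω ∈ K) ∧ IsLevelCharS S K χ ∧
      ∀ A : ValuationSubring Qbar, A.LiesOverPrime p →
        ∃ d : GQ, d ∈ A.decompositionSubgroup ℚ ∧ d ∈ K.fixingSubgroup ∧ χ d ≠ 0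

/-- **[PAIR] (realisation of pair classes, cofinal form)**: for a cofinal family of finite
`K ≤ ℚ_S` (stable under `G_ℚ`, `μ_p ⊆ K`) and any two places `A₁`, `A₂` of `ℚ̄` over `p` lying over
different primes of `K` there is an `S`-level `ℤ/p`-valued 2-cocycle of `G_K` which is locally
trivial at all other places over `S` (over `p` and over the other primes of `S`) and not locally
trivial at both `A₁` and `A₂`. -/
def PairRealCofStatement : Prop :=
  ∀ (p : ℕ) [Fact p.Prime], p ≠ 2 → ∀ (S : Finset Nat.Primes), ExtCitation.pPrime p ∈ S →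
    ∀ K₀ : IntermediateField ℚ Qbar, K₀.IsUnramifiedOutside S →
    ∃ K : IntermediateField ℚ Qbar, K₀ ≤ K ∧ K.IsUnramifiedOutside S ∧
      (∀ (g : GQ) (x : Qbar), x ∈ K → g x ∈ K) ∧
      (∀ ω : Qbar, ω ^ p = 1 → ω ∈ K) ∧
      ∀ A₁ A₂ : ValuationSubring Qbar, A₁.LiesOverPrime p → A₂.LiesOverPrime p →
        ¬ SamePlaceOver K A₁ A₂ →
        ∃ x : GalL K × GalL K → ZMod p, IsCocycle₂ x ∧ IsSLvl₂ S K x ∧
          (∀ q : Nat.Primes, q ∈ S → ∀ A : ValuationSubring Qbar, A.LiesOverPrime (q : ℕ) →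
            ¬ SamePlaceOver K A₁ A → ¬ SamePlaceOver K A₂ A → IsLocTrivAt K A x) ∧
          ¬ (IsLocTrivAt K A₁ x ∧ IsLocTrivAt K A₂ x)

/-- The pair classes for a given layer: the assembly target of helper43
(`pairUnit` + Brauer-S lift + local norm dictionary). -/
def PairRealOfLayerStatement : Prop :=
  ∀ (p : ℕ) [Fact p.Prime], p ≠ 2 → ∀ (S : Finset Nat.Primes), ExtCitation.pPrime p ∈ S →
    ∀ (K : IntermediateField ℚ Qbar) (χ : GQ → ZMod p), K.IsUnramifiedOutside S →
      (∀ (g : GQ) (x : Qbar), x ∈ K → g x ∈ K) →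
      (∀ ω : Qbar, ω ^ p = 1 → ω ∈ K) → IsLevelCharS S K χ →
      (∀ A : ValuationSubring Qbar, A.LiesOverPrime p →
        ∃ d : GQ, d ∈ A.decompositionSubgroup ℚ ∧ d ∈ K.fixingSubgroup ∧ χ d ≠ 0) →
      ∀ A₁ A₂ : ValuationSubring Qbar, A₁.LiesOverPrime p → A₂.LiesOverPrime p →
        ¬ SamePlaceOver K A₁ A₂ →
        ∃ x : GalL K × GalL K → ZMod p, IsCocycle₂ x ∧ IsSLvl₂ S K x ∧
          (∀ q : Nat.Primes, q ∈ S → ∀ A : ValuationSubring Qbar, A.LiesOverPrime (q : ℕ) →
            ¬ SamePlaceOver K A₁ A → ¬ SamePlaceOver K A₂ A → IsLocTrivAt K A x) ∧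
          ¬ (IsLocTrivAt K A₁ x ∧ IsLocTrivAt K A₂ x)

/-- Assembly: the cofinal layer and the pair classes of a layer give `PairRealCofStatement`. -/
theorem pairRealCof_of (hcof : CofLayerStatement) (hpair : PairRealOfLayerStatement) :
    PairRealCofStatement := by
  intro p _ hp2 S hpS K₀ hK₀
  obtain ⟨K, χ, hle, hK, hnorm, hμ, hχ, hns⟩ := hcof p hp2 S hpS K₀ hK₀
  exact ⟨K, hle, hK, hnorm, hμ, fun A₁ A₂ h1 h2 h12 =>
    hpair p hp2 S hpS K χ hK hnorm hμ hχ hns A₁ A₂ h1 h2 h12⟩

end Fermat.Agent.H76.Cft
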