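/-
P-CFT (helper76): the DICTIONARY field language -> U-language (`Fermat.Agent.H13.Cft.ULang`).

Field language: `L : IntermediateField ℚ Qbar`, cochains on `GalL L = ↥L.fixingSubgroup`,
`IsSLvl₂`, `IsLocTrivAt L A x` for places `A : ValuationSubring Qbar` (helper54, N6Interfaces).
U-language: `U : Subgroup GQ`, level system `(globalLevelSys S).restrict U`, places `(v, g)`,
`g ∈ G_ℚ`, decomposition groups `mackeySubgroup (loc v) U g`, `IsLocTriv₂` (helper13, ULang).
The place `(v, g)` is `A = g • A_v`, `A_v = primeLocalPlace v` (decomposition group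
`g loc(Γ_v) g⁻¹`).

Targets (consumed by the frame rows GC-SHAP, GA-SHAP):
* `BdPairsOfFieldStatement   : PairRealCofStatement → BdPairsUStatement`          [GA-FIELD]
* `GlobalCountUOfFieldStatement : Sha2BoundElemStatement → GlobalCountUStatement` [GC-FIELD]
with the pieces `LocalCountUStatement`, `IndexArithStatement`, `PlaceCountStatement`,
`H1UStatement`, `ShaUStatement`.
-/
import Fermat.Agent.H13.Cft.ULang
import Fermat.Agent.H76.Cft.PairInterfaces

set_option autoImplicit false

open Fermat.Agent.H54.Cft Fermat.Agent.H13.Cft Fermat.Agent.H97.Shap Fermat.Agent.H78.CFT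
open ExtCitation IsDedekindDomain NumberField
open scoped Pointwise

namespace Fermat.Agent.H76.Cft

/-- The place of `ℚ̄` attached to `(v, g)`: the translate `g • A_v` of the standard place. -/
noncomputable def placeOf (v : Nat.Primes) (g : GQ) : ValuationSubring Qbar :=
  g • primeLocalPlace v

/-! ### `[GA-FIELD]` -/

/-- **[GA-FIELD]** the pair classes in U-language from the pair classes in field language. -/
def BdPairsOfFieldStatement : Prop := PairRealCofStatement → BdPairsUStatement

/-! ### `[GC-FIELD]`: the pieces -/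

/-- **[GC-LOC-U]** the local count: for `U` open with trivial cyclotomic character, the number of
level homomorphisms `D_{v,g} → ZMod p` is `p ^ (2 + [Γ_v : D_{v,g}])` for `v = p` and `p ^ 2`
for `v ≠ p`.  (`[Γ_v : D_{v,g}] = [K_w : ℚ_v]`; from `fieldH1Card`.) -/
def LocalCountUStatement : Prop :=
  ∀ (p : ℕ) [Fact p.Prime], p ≠ 2 → ∀ (S : Finset Nat.Primes), pPrime p ∈ S →
    ∀ (hχ : ∃ N ∈ (globalLevelSys S).sets, ∀ s ∈ N, cycloChar p s = 1) (U : Subgroup GQ)
      (hU : IsChiOpen (globalLevelSys S) (cycloChar p) U)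
      (v : (arithDatumQ p S hχ).ι) (g : GQ),
      Nat.card {ψ : mackeySubgroup ((arithDatumQ p S hχ).loc v) U g → ZMod p //
          IsLvlHom (decLvl (arithDatumQ p S hχ) U hU.1 v g) ψ}
        = if v.1 = pPrime p then
            p ^ (2 + (mackeySubgroup ((arithDatumQ p S hχ).loc v) U g).index)
          else p ^ 2

/-- **[GC-ARITH]** a number field `L ≤ ℚ̄` containing `μ_p`, `p` odd, is totally complex:
`[G_ℚ : G_L] = [L : ℚ] = 2 · #{infinite places}`. -/
def IndexArithStatement : Prop :=
  ∀ (p : ℕ) [Fact p.Prime], p ≠ 2 → ∀ (L : IntermediateField ℚ Qbar) [NumberField L],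
    (∀ ω : Qbar, ω ^ p = 1 → ω ∈ L) →
    L.fixingSubgroup.index = 2 * Fintype.card (InfinitePlace L)

/-- **[GC-PLACES]** the number of places of `U = G_L` over `S` (double cosets
`U \ G_ℚ / loc(Γ_v)`, `v ∈ S`) is at most (in fact equal to) the number of primes of `L` over
`S`. -/
def PlaceCountStatement : Prop :=
  ∀ (p : ℕ) [Fact p.Prime] (S : Finset Nat.Primes)
    (hχ : ∃ N ∈ (globalLevelSys S).sets, ∀ s ∈ N, cycloChar p s = 1)
    (L : IntermediateField ℚ Qbar) [NumberField L] (hT : (primesOverS S L).Finite)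
    (R : (arithDatumQ p S hχ).ι → Finset GQ),
    (∀ v, IsPlaceReps (arithDatumQ p S hχ) L.fixingSubgroup v (R v)) →
    ∑ v, (R v).card ≤ (primesOverSFinset S L hT).card

/-- **[GC-H1-U]** the number of level homomorphisms `G_L → ZMod p` (levels of `G_{ℚ,S}`):
`p ^ (#{infinite places} + #T) · #Cl_T(L)[p]` (from `levelCharCount`). -/
def H1UStatement : Prop :=
  ∀ (p : ℕ) [Fact p.Prime] (S : Finset Nat.Primes), pPrime p ∈ S →
    ∀ (L : IntermediateField ℚ Qbar) [NumberField L], L.IsUnramifiedOutside S →
    (∀ ω : Qbar, ω ^ p = 1 → ω ∈ L) → ∀ (hT : (primesOverS S L).Finite)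
      (hU : ∃ N ∈ (globalLevelSys S).sets, N ≤ L.fixingSubgroup),
      H1Finite ((globalLevelSys S).restrict L.fixingSubgroup hU) p ∧
      Nat.card {ψ : L.fixingSubgroup → ZMod p //
          IsLvlHom ((globalLevelSys S).restrict L.fixingSubgroup hU) ψ}
        = p ^ (Fintype.card (InfinitePlace L) + (primesOverSFinset S L hT).card) *
            clTorsionCard L (primesOverSFinset S L hT) p

/-- **[GC-SHA-U]** `Ш²` in U-language: a finite set `Rsha` with at most `#Cl_T(L)[p]` elements
such that every level `2`-cocycle of `G_L` which is locally trivial at all places `(v, g)` is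
cohomologous to an element of `Rsha`. -/
def ShaUStatement : Prop :=
  ∀ (p : ℕ) [Fact p.Prime], p ≠ 2 → ∀ (S : Finset Nat.Primes), pPrime p ∈ S →
    ∀ (hχ : ∃ N ∈ (globalLevelSys S).sets, ∀ s ∈ N, cycloChar p s = 1)
      (L : IntermediateField ℚ Qbar) [NumberField L], L.IsUnramifiedOutside S →
    (∀ ω : Qbar, ω ^ p = 1 → ω ∈ L) → ∀ (hT : (primesOverS S L).Finite)
      (hU : ∃ N ∈ (globalLevelSys S).sets, N ≤ L.fixingSubgroup),
      ∃ Rsha : Finset (L.fixingSubgroup × L.fixingSubgroup → ZMod p),
        Rsha.card ≤ clTorsionCard L (primesOverSFinset S L hT) p ∧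
        ∀ c : L.fixingSubgroup × L.fixingSubgroup → ZMod p,
          IsLvl₂ ((globalLevelSys S).restrict L.fixingSubgroup hU) c → IsTrivCocycle₂ c →
          (∀ (v : (arithDatumQ p S hχ).ι) (g : GQ),
            IsLocTriv₂ (arithDatumQ p S hχ) L.fixingSubgroup hU c v g) →
          ∃ r ∈ Rsha, IsLvlCoboundary₂ ((globalLevelSys S).restrict L.fixingSubgroup hU)
            (fun x => c x - r x)

/-- **[GC-SHA-FIELD]** `Ш²` in U-language from `Ш²` in field language. -/
def ShaUOfFieldStatement : Prop := Sha2BoundElemStatement → ShaUStatement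

/-- **[GC-ASM]** assembly of the count in U-language. -/
def GlobalCountUOfPiecesStatement : Prop :=
  LocalCountUStatement → IndexArithStatement → PlaceCountStatement → H1UStatement →
    ShaUStatement → GlobalCountUStatement

/-- **[GC-FIELD]** the count in U-language from the bound of `Ш²` in field language (all other
inputs are landed: `levelCharCount`, `fieldH1Card`, orbit count). -/
def GlobalCountUOfFieldStatement : Prop := Sha2BoundElemStatement → GlobalCountUStatement

end Fermat.Agent.H76.Cft
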