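/-
P-CFT (helper76): the shared DICTIONARY field language <-> U-language.

* levels   : `isSLvl₁_iff`, `isSLvl₂_iff`, `isCocycle₂_iff`, `isSCohomologous₂_iff`;
* places   : `isLocTrivAt_of_isLocTriv₂`, `isLocTriv₂_of_isLocTrivAt` for the place
             `placeOf v g = g • primeLocalPlace v`; `samePlace_iff`; `exists_placeOf_eq`.
-/
import Fermat.Agent.H76.Cft.FieldDictInterfaces
import Fermat.Agent.H21.Cft.BridgeLevels
import Fermat.Agent.H81.Local.B5
import Fermat.Agent.H53.S14T.Profinite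

set_option autoImplicit false
set_option linter.style.haveILetI false

open Fermat.Agent.H54.Cft Fermat.Agent.H13.Cft Fermat.Agent.H97.Shap Fermat.Agent.H78.CFT
open ExtCitation IsDedekindDomain NumberField
open scoped Pointwise

namespace Fermat.Agent.H76.Cft

/-! ### Levels -/

section levels

variable (S : Finset Nat.Primes) (L : IntermediateField ℚ Qbar)
  (hU : ∃ N ∈ (globalLevelSys S).sets, N ≤ L.fixingSubgroup)

/-- A field unramified outside `S` gives a set of the restricted level system. -/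
theorem exists_restrictLevel_le {F : IntermediateField ℚ Qbar} (hF : F.IsUnramifiedOutside S) :
    ∃ N' ∈ ((globalLevelSys S).restrict L.fixingSubgroup hU).sets,
      ∀ n ∈ N', ((n : L.fixingSubgroup) : GQ) ∈ F.fixingSubgroup := by
  obtain ⟨N₀, hN₀, hN₀U⟩ := hU
  obtain ⟨N₁, hN₁, hN₁F⟩ := Fermat.Agent.H21.Cft.exists_level_le_fixingSubgroup S hF
  obtain ⟨N, hN, hle⟩ := (globalLevelSys S).directed N₀ hN₀ N₁ hN₁
  refine ⟨N.subgroupOf L.fixingSubgroup, ⟨N, hN, (hle.trans inf_le_left).trans hN₀U, rfl⟩, ?_⟩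
  intro n hn
  exact hN₁F (hle.trans inf_le_right (Subgroup.mem_subgroupOf.mp hn))

/-- A set of the restricted level system is cut out by a field unramified outside `S`. -/
theorem exists_field_of_restrictLevel {N' : Subgroup L.fixingSubgroup}
    (hN' : N' ∈ ((globalLevelSys S).restrict L.fixingSubgroup hU).sets) :
    ∃ F : IntermediateField ℚ Qbar, F.IsUnramifiedOutside S ∧
      ∀ n : L.fixingSubgroup, (n : GQ) ∈ F.fixingSubgroup → n ∈ N' := by
  obtain ⟨N, hN, -, rfl⟩ := hN'
  obtain ⟨F, hF, hFN⟩ := Fermat.Agent.H21.Cft.exists_unramified_field_of_level S hN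
  refine ⟨F, hF, fun n hn => ?_⟩
  rw [Subgroup.mem_subgroupOf, ← hFN]
  exact hn

theorem isSLvl₁_iff {X : Type} [AddCommGroup X] (x : GalL L → X) :
    IsSLvl₁ S L x ↔ IsLvl₁ ((globalLevelSys S).restrict L.fixingSubgroup hU) x := by
  constructor
  · rintro ⟨F, hF, hx⟩
    obtain ⟨N', hN', hle⟩ := exists_restrictLevel_le S L hU hF
    exact ⟨N', hN', fun g n hn => hx g n (hle n hn)⟩
  · rintro ⟨N', hN', hx⟩
    obtain ⟨F, hF, hle⟩ := exists_field_of_restrictLevel S L hU hN'
    exact ⟨F, hF, fun g n hn => hx g n (hle n hn)⟩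

theorem isSLvl₂_iff {X : Type} [AddCommGroup X] (c : GalL L × GalL L → X) :
    IsSLvl₂ S L c ↔ IsLvl₂ ((globalLevelSys S).restrict L.fixingSubgroup hU) c := by
  constructor
  · rintro ⟨F, hF, hx⟩
    obtain ⟨N', hN', hle⟩ := exists_restrictLevel_le S L hU hF
    exact ⟨N', hN', fun g h n hn m hm => hx g h n m (hle n hn) (hle m hm)⟩
  · rintro ⟨N', hN', hx⟩
    obtain ⟨F, hF, hle⟩ := exists_field_of_restrictLevel S L hU hN'
    exact ⟨F, hF, fun g h n m hn hm => hx g h n (hle n hn) m (hle m hm)⟩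

theorem isCocycle₂_iff {G : Type} [Group G] {p : ℕ} (x : G × G → ZMod p) :
    IsCocycle₂ x ↔ IsTrivCocycle₂ x := by
  constructor
  · intro h g h' j
    have := h g h' j
    linear_combination -this
  · intro h g h' j
    have := h g h' j
    linear_combination -this

theorem isSCohomologous₂_iff {p : ℕ} (x r : GalL L × GalL L → ZMod p) :
    IsSCohomologous₂ S L x r ↔
      IsLvlCoboundary₂ ((globalLevelSys S).restrict L.fixingSubgroup hU)
        (fun t => x t - r t) := by
  constructor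
  · rintro ⟨y, hy, h⟩
    refine ⟨y, (isSLvl₁_iff S L hU y).mp hy, fun g h' => ?_⟩
    have := h g h'
    show y h' - y (g * h') + y g = x (g, h') - r (g, h')
    rw [this]; ring
  · rintro ⟨y, hy, h⟩
    refine ⟨y, (isSLvl₁_iff S L hU y).mpr hy, fun g h' => ?_⟩
    have : y h' - y (g * h') + y g = x (g, h') - r (g, h') := h g h'
    rw [this]; ring

end levels

/-! ### Places -/

section places

/-- Every finite `F` lies in a finite `F₁` whose fixing subgroup is normal. -/
theorem exists_normal_finite (F : IntermediateField ℚ Qbar) [FiniteDimensional ℚ F] :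
    ∃ F₁ : IntermediateField ℚ Qbar, FiniteDimensional ℚ F₁ ∧ F₁.fixingSubgroup.Normal ∧
      F₁.fixingSubgroup ≤ F.fixingSubgroup := by
  haveI := Fermat.Agent.H21.Cft.isGalois_qbar_adm
  haveI : Normal ℚ (AlgebraicClosure ℚ) := Fermat.Agent.H21.Cft.isGalois_qbar_adm.to_normal
  haveI : Normal ℚ (IntermediateField.normalClosure ℚ F (AlgebraicClosure ℚ)) :=
    normalClosure.normal ℚ F _
  haveI : IsGalois ℚ (IntermediateField.normalClosure ℚ F (AlgebraicClosure ℚ)) := ⟨⟩
  exact ⟨IntermediateField.normalClosure ℚ F (AlgebraicClosure ℚ),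
    normalClosure.is_finiteDimensional ℚ F _,
    (InfiniteGalois.normal_iff_isGalois _).mpr inferInstance,
    IntermediateField.fixingSubgroup_antitone (IntermediateField.le_normalClosure F)⟩

variable (q : Nat.Primes)

/-- The range of the localisation map is the decomposition group of the standard place. -/
theorem range_primeLocalToGlobal :
    (primeLocalToGlobal q).range = (primeLocalPlace q).decompositionSubgroup ℚ := by
  haveI : Fact (q : ℕ).Prime := ⟨q.2⟩
  exact Fermat.Agent.H81.Local.range_localGaloisToGlobal (q : ℕ)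

theorem primeLocalToGlobal_injective : Function.Injective (primeLocalToGlobal q) := by
  haveI : Fact (q : ℕ).Prime := ⟨q.2⟩
  exact Fermat.Agent.H81.Local.localGaloisToGlobal_injective (q : ℕ)

theorem primeLocalPlace_liesOverPrime : (primeLocalPlace q).LiesOverPrime (q : ℕ) := by
  haveI : Fact (q : ℕ).Prime := ⟨q.2⟩
  exact Fermat.Agent.H81.Local.padicPlace_liesOverPrime (q : ℕ)

theorem placeOf_liesOverPrime (g : GQ) : (placeOf q g).LiesOverPrime (q : ℕ) :=
  Fermat.Agent.H96.Cft.liesOverPrime_smul g (primeLocalPlace_liesOverPrime q)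

/-- The decomposition group of `g • A_q` is `g loc(Γ_q) g⁻¹`. -/
theorem mem_decomp_placeOf_iff (g h : GQ) :
    h ∈ (placeOf q g).decompositionSubgroup ℚ ↔
      ∃ γ : primeLocalGaloisGroup q, g * primeLocalToGlobal q γ * g⁻¹ = h := by
  have hr := range_primeLocalToGlobal q
  constructor
  · intro hh
    have h1 : h • (g • primeLocalPlace q) = g • primeLocalPlace q := hh
    have h2 : (g⁻¹ * h * g) • primeLocalPlace q = primeLocalPlace q := by
      rw [mul_smul, mul_smul, h1, inv_smul_smul]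
    have h3 : g⁻¹ * h * g ∈ (primeLocalToGlobal q).range := by
      rw [hr]; exact h2
    obtain ⟨γ, hγ⟩ := h3
    exact ⟨γ, by rw [hγ]; group⟩
  · rintro ⟨γ, rfl⟩
    have h3 : primeLocalToGlobal q γ ∈ (primeLocalPlace q).decompositionSubgroup ℚ := by
      rw [← hr]; exact ⟨γ, rfl⟩
    have h4 : primeLocalToGlobal q γ • primeLocalPlace q = primeLocalPlace q := h3
    show (g * primeLocalToGlobal q γ * g⁻¹) • (g • primeLocalPlace q) = g • primeLocalPlace q
    rw [mul_smul, inv_smul_smul, mul_smul, h4]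

variable (L : IntermediateField ℚ Qbar) (g : GQ)

theorem mackeyLoc_mem_decomp (γ : mackeySubgroup (primeLocalToGlobal q) L.fixingSubgroup g) :
    ((mackeyLoc (primeLocalToGlobal q) L.fixingSubgroup g γ : L.fixingSubgroup) : GQ) ∈
      (placeOf q g).decompositionSubgroup ℚ :=
  (mem_decomp_placeOf_iff q g _).mpr ⟨γ.1, rfl⟩

theorem exists_mackeyLoc_eq (h : L.fixingSubgroup)
    (hh : (h : GQ) ∈ (placeOf q g).decompositionSubgroup ℚ) :
    ∃ γ : mackeySubgroup (primeLocalToGlobal q) L.fixingSubgroup g,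
      mackeyLoc (primeLocalToGlobal q) L.fixingSubgroup g γ = h := by
  obtain ⟨γ, hγ⟩ := (mem_decomp_placeOf_iff q g _).mp hh
  refine ⟨⟨γ, ?_⟩, Subtype.ext hγ⟩
  rw [mem_mackeySubgroup, hγ]
  exact h.2

theorem mackeyLoc_injective :
    Function.Injective (mackeyLoc (primeLocalToGlobal q) L.fixingSubgroup g) := by
  intro a b hab
  have h1 : g * primeLocalToGlobal q a.1 * g⁻¹ = g * primeLocalToGlobal q b.1 * g⁻¹ :=
    congrArg Subtype.val hab
  have h2 : primeLocalToGlobal q a.1 = primeLocalToGlobal q b.1 := by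
    have := congrArg (fun t => g⁻¹ * t * g) h1
    simpa [mul_assoc] using this
  exact Subtype.ext (primeLocalToGlobal_injective q h2)

/-- From the U-language to the field language. -/
theorem isLocTrivAt_of_isLvlCoboundary₂ {p : ℕ}
    (hD : ∃ N ∈ (pullbackLevelSys (primeLocalToGlobal q)).sets,
      N ≤ mackeySubgroup (primeLocalToGlobal q) L.fixingSubgroup g)
    (c : GalL L × GalL L → ZMod p)
    (h : IsLvlCoboundary₂ ((pullbackLevelSys (primeLocalToGlobal q)).restrict _ hD)
      (fun x => c (mackeyLoc (primeLocalToGlobal q) L.fixingSubgroup g x.1,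
        mackeyLoc (primeLocalToGlobal q) L.fixingSubgroup g x.2))) :
    IsLocTrivAt L (placeOf q g) c := by
  classical
  obtain ⟨b, ⟨N', ⟨N, ⟨-, -, F, hFfin, hFN⟩, -, rfl⟩, hb⟩, hcb⟩ := h
  haveI := hFfin
  obtain ⟨F₁, hF₁fin, hF₁n, hF₁le⟩ := exists_normal_finite F
  set ml := mackeyLoc (primeLocalToGlobal q) L.fixingSubgroup g with hml
  have hinj : Function.Injective ml := mackeyLoc_injective q L g
  -- the cochain on `G_L`
  let y : GalL L → ZMod p := fun h =>
    if hh : ∃ γ : mackeySubgroup (primeLocalToGlobal q) L.fixingSubgroup g, ml γ = h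
    then b hh.choose else 0
  have hy : ∀ γ, y (ml γ) = b γ := by
    intro γ
    have hh : ∃ γ' : mackeySubgroup (primeLocalToGlobal q) L.fixingSubgroup g,
        ml γ' = ml γ := ⟨γ, rfl⟩
    show (if hh : ∃ γ' : mackeySubgroup (primeLocalToGlobal q) L.fixingSubgroup g,
      ml γ' = ml γ then b hh.choose else 0) = b γ
    rw [dif_pos hh]
    exact congrArg b (hinj hh.choose_spec)
  refine ⟨y, ⟨F₁, hF₁fin, ?_⟩, ?_⟩
  · intro h n hh hn hnF
    obtain ⟨γ, rfl⟩ := exists_mackeyLoc_eq q L g h hh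
    obtain ⟨ν, rfl⟩ := exists_mackeyLoc_eq q L g n hn
    rw [← map_mul, hy, hy]
    apply hb
    rw [Subgroup.mem_subgroupOf]
    apply hFN
    rw [Subgroup.mem_comap]
    apply hF₁le
    have h1 : g⁻¹ * ((ml ν : L.fixingSubgroup) : GQ) * g⁻¹⁻¹ ∈ F₁.fixingSubgroup :=
      hF₁n.conj_mem _ hnF g⁻¹
    have h2 : g⁻¹ * ((ml ν : L.fixingSubgroup) : GQ) * g⁻¹⁻¹ = primeLocalToGlobal q ν.1 := by
      rw [hml, mackeyLoc_coe]; group
    rw [← h2]
    exact h1
  · intro h h' hh hh'
    obtain ⟨γ, rfl⟩ := exists_mackeyLoc_eq q L g h hh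
    obtain ⟨γ', rfl⟩ := exists_mackeyLoc_eq q L g h' hh'
    rw [← map_mul, hy, hy, hy]
    exact (hcb γ γ').symm

/-- From the field language to the U-language. -/
theorem isLvlCoboundary₂_of_isLocTrivAt {p : ℕ}
    (hD : ∃ N ∈ (pullbackLevelSys (primeLocalToGlobal q)).sets,
      N ≤ mackeySubgroup (primeLocalToGlobal q) L.fixingSubgroup g)
    (c : GalL L × GalL L → ZMod p) (h : IsLocTrivAt L (placeOf q g) c) :
    IsLvlCoboundary₂ ((pullbackLevelSys (primeLocalToGlobal q)).restrict _ hD)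
      (fun x => c (mackeyLoc (primeLocalToGlobal q) L.fixingSubgroup g x.1,
        mackeyLoc (primeLocalToGlobal q) L.fixingSubgroup g x.2)) := by
  obtain ⟨y, ⟨F, hFfin, hy⟩, hc⟩ := h
  haveI := hFfin
  obtain ⟨F₁, hF₁fin, hF₁n, hF₁le⟩ := exists_normal_finite F
  haveI := hF₁fin
  set ml := mackeyLoc (primeLocalToGlobal q) L.fixingSubgroup g with hml
  obtain ⟨N₁, hN₁, hN₁le⟩ :=
    Fermat.Agent.H21.Cft.exists_pullbackLevel_le (primeLocalToGlobal q) F₁
  obtain ⟨N₂, hN₂, hN₂le⟩ := hD
  obtain ⟨N, hN, hle⟩ := (pullbackLevelSys (primeLocalToGlobal q)).directed N₁ hN₁ N₂ hN₂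
  refine ⟨fun γ => y (ml γ), ⟨N.subgroupOf _, ⟨N, hN, (hle.trans inf_le_right).trans hN₂le, rfl⟩,
    ?_⟩, ?_⟩
  · intro γ n hn
    show y (ml (γ * n)) = y (ml γ)
    rw [map_mul]
    refine hy (ml γ) (ml n) (mackeyLoc_mem_decomp q L g γ) (mackeyLoc_mem_decomp q L g n) ?_
    apply hF₁le
    have h1 : primeLocalToGlobal q n.1 ∈ F₁.fixingSubgroup :=
      hN₁le (hle.trans inf_le_left (Subgroup.mem_subgroupOf.mp hn))
    have h2 := hF₁n.conj_mem _ h1 g
    rw [hml, mackeyLoc_coe]
    exact h2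
  · intro γ γ'
    show y (ml γ') - y (ml (γ * γ')) + y (ml γ) = c (ml γ, ml γ')
    rw [map_mul]
    exact (hc (ml γ) (ml γ') (mackeyLoc_mem_decomp q L g γ) (mackeyLoc_mem_decomp q L g γ')).symm

end places

/-! ### Same place; transitivity -/

section transit

/-- A rational number lies in a place over `q` iff `q` does not divide its denominator. -/
theorem rat_mem_iff_of_liesOver {A : ValuationSubring Qbar} {q : ℕ} (hq : q.Prime)
    (hA : A.LiesOverPrime q) (r : ℚ) :
    algebraMap ℚ Qbar r ∈ A ↔ ¬ q ∣ r.den := by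
  have hA' : ((q : ℕ) : Qbar) ∈ A.nonunits := hA
  have hr : algebraMap ℚ Qbar r = (r.num : Qbar) * ((r.den : ℕ) : Qbar)⁻¹ := by
    conv_lhs => rw [← Rat.num_div_den r]
    simp [div_eq_mul_inv]
  have hden0 : ((r.den : ℕ) : Qbar) ≠ 0 := by exact_mod_cast r.den_nz
  constructor
  · intro hmem hdvd
    -- the numerator is prime to `q`
    have hcop : Nat.Coprime r.num.natAbs q := by
      have h1 : Nat.Coprime r.num.natAbs r.den := r.reduced
      exact Nat.Coprime.coprime_dvd_right hdvd h1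
    have hnum : ((r.num.natAbs : ℕ) : Qbar) ∉ A.nonunits :=
      Fermat.Agent.H96.Cft.natCast_not_mem_nonunits A hcop hA'
    obtain ⟨hn0, hninv⟩ := Fermat.Agent.H53.inv_mem_of_not_mem_nonunits A hnum
    have hnum' : (r.num : Qbar)⁻¹ ∈ A := by
      rcases Int.natAbs_eq r.num with h | h
      · have : (r.num : Qbar) = ((r.num.natAbs : ℕ) : Qbar) := by
          have h' := congrArg (Int.cast : ℤ → Qbar) h
          rw [Int.cast_natCast] at h'
          exact h'
        rw [this]; exact hninv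
      · have : (r.num : Qbar) = -((r.num.natAbs : ℕ) : Qbar) := by
          have h' := congrArg (Int.cast : ℤ → Qbar) h
          rw [Int.cast_neg, Int.cast_natCast] at h'
          exact h'
        rw [this, inv_neg]; exact neg_mem hninv
    have hnum0 : (r.num : Qbar) ≠ 0 := by
      intro h0
      apply hn0
      have : r.num = 0 := by exact_mod_cast h0
      simp [this]
    have hdeninv : ((r.den : ℕ) : Qbar)⁻¹ ∈ A := by
      have : ((r.den : ℕ) : Qbar)⁻¹ = algebraMap ℚ Qbar r * (r.num : Qbar)⁻¹ := by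
        rw [hr]; field_simp
      rw [this]
      exact mul_mem hmem hnum'
    obtain ⟨k, hk⟩ := hdvd
    have hdenmem : ((r.den : ℕ) : Qbar) ∈ A.nonunits := by
      have : ((r.den : ℕ) : Qbar) = ((q : ℕ) : Qbar) * ((k : ℕ) : Qbar) := by
        rw [hk]; push_cast; rfl
      rw [this]
      exact Fermat.Agent.H96.Cft.nonunits_mul_mem_right A hA' (natCast_mem A k)
    have h1 : ((r.den : ℕ) : Qbar) * ((r.den : ℕ) : Qbar)⁻¹ ∈ A.nonunits :=
      Fermat.Agent.H96.Cft.nonunits_mul_mem_right A hdenmem hdeninv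
    rw [mul_inv_cancel₀ hden0] at h1
    rw [ValuationSubring.mem_nonunits_iff, map_one] at h1
    exact lt_irrefl _ h1
  · intro hndvd
    have hcop : Nat.Coprime r.den q := (Nat.Coprime.symm ((Nat.Prime.coprime_iff_not_dvd hq).mpr hndvd))
    have hden : ((r.den : ℕ) : Qbar) ∉ A.nonunits :=
      Fermat.Agent.H96.Cft.natCast_not_mem_nonunits A hcop hA'
    obtain ⟨-, hdinv⟩ := Fermat.Agent.H53.inv_mem_of_not_mem_nonunits A hden
    rw [hr]
    exact mul_mem (intCast_mem A r.num) hdinv

/-- Transitivity: every place over `q` is a translate of the standard place. -/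
theorem exists_placeOf_eq (q : Nat.Primes) {A : ValuationSubring Qbar}
    (hA : A.LiesOverPrime (q : ℕ)) : ∃ g : GQ, placeOf q g = A := by
  have h0 := primeLocalPlace_liesOverPrime q
  obtain ⟨ρ, -, hρ⟩ := Fermat.Agent.H53.transitiveStatement ⊥ A (primeLocalPlace q) (q : ℕ) q.2 hA
    (by
      intro y hy
      obtain ⟨r, rfl⟩ := IntermediateField.mem_bot.mp hy
      rw [rat_mem_iff_of_liesOver q.2 hA, rat_mem_iff_of_liesOver q.2 h0])
  refine ⟨ρ, ?_⟩
  ext x
  show x ∈ ρ • primeLocalPlace q ↔ x ∈ A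
  rw [Fermat.Agent.H96.Cft.mem_smul_iff, hρ]
  have : ρ (ρ⁻¹ x) = x := by
    show (ρ * ρ⁻¹) x = x
    rw [mul_inv_cancel]; rfl
  rw [this]

/-- `SamePlace` in U-language is `SamePlaceOver` for the translated places. -/
theorem samePlace_iff (q : Nat.Primes) (L : IntermediateField ℚ Qbar) (g g' : GQ) :
    (∃ (u : L.fixingSubgroup) (γ : primeLocalGaloisGroup q),
        g' = u * g * primeLocalToGlobal q γ) ↔
      SamePlaceOver L (placeOf q g) (placeOf q g') := by
  have hr := range_primeLocalToGlobal q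
  constructor
  · rintro ⟨u, γ, rfl⟩
    refine ⟨u, u.2, ?_⟩
    have h3 : primeLocalToGlobal q γ ∈ (primeLocalPlace q).decompositionSubgroup ℚ := by
      rw [← hr]; exact ⟨γ, rfl⟩
    have h4 : primeLocalToGlobal q γ • primeLocalPlace q = primeLocalPlace q := h3
    show (u : GQ) • (g • primeLocalPlace q) =
      ((u : GQ) * g * primeLocalToGlobal q γ) • primeLocalPlace q
    rw [mul_smul, mul_smul, h4]
  · rintro ⟨u, hu, h⟩
    have h1 : u • (g • primeLocalPlace q) = g' • primeLocalPlace q := h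
    have h2 : (g'⁻¹ * u * g) • primeLocalPlace q = primeLocalPlace q := by
      rw [mul_smul, mul_smul, h1, inv_smul_smul]
    have h3 : g'⁻¹ * u * g ∈ (primeLocalToGlobal q).range := by
      rw [hr]; exact h2
    obtain ⟨γ, hγ⟩ := h3
    refine ⟨⟨u, hu⟩, γ⁻¹, ?_⟩
    rw [map_inv, hγ]
    show g' = u * g * (g'⁻¹ * u * g)⁻¹
    group

end transit

end Fermat.Agent.H76.Cft
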