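/-
P-CFT / RECIP-Q (helper76): **[RQ-AUX]** the auxiliary prime.

`auxPrime : Fermat.Agent.H25.Recip.AuxPrimeStatement`: for an odd prime `p` and a finite set `T`
of primes there is a prime `ℓ ≡ 1 (p)`, `ℓ ∉ T`, `ℓ ≠ p`, such that no `q ∈ T` is a `p`-th power
modulo `ℓ`.

Proof: helper25's `exists_aux_prime` over `K = ℚ(ζ_p)` with `b = q₁`, `D = {q / q₁ : q ∈ T}`;
`b ∉ ⟨D⟩ (Kˣ)^p` by the homomorphism `x ↦ ∑_{q ∈ T} v_q (N_{K/ℚ} x) mod p`.
-/
import Fermat.Agent.H25.Recip.Interfaces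
import Fermat.Agent.H25.CFT.AuxPrimeCore

set_option autoImplicit false
set_option linter.style.haveILetI false

open IsDedekindDomain NumberField Ideal

namespace Fermat.Agent.H76.Cft

open Fermat.Agent.H25.CFT Fermat.Agent.H25.Recip

section general

variable {K : Type} [Field K] [NumberField K]

/-- An integer lying in a prime `w` of prime norm `ℓ` is divisible by `ℓ`. -/
theorem ap_dvd_of_intCast_mem (w : HeightOneSpectrum (𝓞 K)) (hw : (absNorm w.asIdeal).Prime)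
    (n : ℤ) (hn : ((n : ℤ) : 𝓞 K) ∈ w.asIdeal) : ((absNorm w.asIdeal : ℕ) : ℤ) ∣ n := by
  by_contra h
  exact intCast_notMem_of_absNorm_prime w n hw h hn

/-- An integer divisible by the norm of `w` lies in `w`. -/
theorem ap_intCast_mem_of_dvd (w : HeightOneSpectrum (𝓞 K)) (n : ℤ)
    (hn : ((absNorm w.asIdeal : ℕ) : ℤ) ∣ n) : ((n : ℤ) : 𝓞 K) ∈ w.asIdeal := by
  obtain ⟨k, rfl⟩ := hn
  have hl : ((absNorm w.asIdeal : ℕ) : 𝓞 K) ∈ w.asIdeal := Ideal.absNorm_mem w.asIdeal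
  push_cast
  exact w.asIdeal.mul_mem_right _ hl

/-- `p ∣ ℓ - 1` for a prime `w` of prime norm `ℓ ≠ p` of a number field containing `ζ_p`. -/
theorem ap_dvd_absNorm_sub_one (p : ℕ) [hp : Fact p.Prime] (ζ : K) (hζ : IsPrimitiveRoot ζ p)
    (w : HeightOneSpectrum (𝓞 K)) (hw : (absNorm w.asIdeal).Prime)
    (hne : absNorm w.asIdeal ≠ p) : p ∣ absNorm w.asIdeal - 1 := by
  classical
  set ℓ := absNorm w.asIdeal with hℓ
  haveI : Fact ℓ.Prime := ⟨hw⟩
  have hζint : IsIntegral ℤ ζ := hζ.isIntegral hp.out.pos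
  obtain ⟨ζ', hζ'⟩ : ∃ ζ' : 𝓞 K, (ζ' : K) = ζ := ⟨⟨ζ, hζint⟩, rfl⟩
  have hζ'prim : IsPrimitiveRoot ζ' p := by
    have hinj : Function.Injective (algebraMap (𝓞 K) K) := RingOfIntegers.coe_injective
    have h0 : IsPrimitiveRoot (algebraMap (𝓞 K) K ζ') p := by
      show IsPrimitiveRoot ((ζ' : 𝓞 K) : K) p
      rw [hζ']; exact hζ
    exact IsPrimitiveRoot.of_map_of_injective (f := algebraMap (𝓞 K) K) h0 hinj
  obtain ⟨m, hm⟩ := exists_natCast_sub_mem w.asIdeal hw ζ'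
  -- `m ^ p ≡ 1`
  have h1 : ζ' ^ p - (m : 𝓞 K) ^ p ∈ w.asIdeal :=
    Ideal.mem_of_dvd _ (sub_dvd_pow_sub_pow _ _ _) hm
  rw [hζ'prim.pow_eq_one] at h1
  have h2 : (((1 - (m : ℤ) ^ p : ℤ)) : 𝓞 K) ∈ w.asIdeal := by
    push_cast; exact h1
  have h3 : ((ℓ : ℕ) : ℤ) ∣ 1 - (m : ℤ) ^ p := ap_dvd_of_intCast_mem w hw _ h2
  have h4 : ((m : ℕ) : ZMod ℓ) ^ p = 1 := by
    have := (ZMod.intCast_zmod_eq_zero_iff_dvd (1 - (m : ℤ) ^ p) ℓ).2 h3
    push_cast at this
    exact (sub_eq_zero.1 this).symm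
  -- `m ≢ 1`
  have h5 : ((m : ℕ) : ZMod ℓ) ≠ 1 := by
    intro h
    have h6 : ((ℓ : ℕ) : ℤ) ∣ (m : ℤ) - 1 := by
      rw [← ZMod.intCast_zmod_eq_zero_iff_dvd]
      push_cast
      rw [h, sub_self]
    have h7 : ((((m : ℤ) - 1 : ℤ)) : 𝓞 K) ∈ w.asIdeal := ap_intCast_mem_of_dvd w _ h6
    have h8 : ζ' - 1 ∈ w.asIdeal := by
      have : ζ' - 1 = (ζ' - (m : 𝓞 K)) + (((m : ℤ) - 1 : ℤ) : 𝓞 K) := by
        push_cast; ring
      rw [this]
      exact w.asIdeal.add_mem hm h7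
    -- `(ζ' - 1) ∣ p`
    have h9 : ζ' - 1 ∣ ((p : ℕ) : 𝓞 K) := by
      have hd := Polynomial.sub_dvd_eval_sub ζ' 1
        (∑ i ∈ Finset.range p, (Polynomial.X : Polynomial (𝓞 K)) ^ i)
      simp only [Polynomial.eval_finsetSum, Polynomial.eval_pow, Polynomial.eval_X, one_pow,
        Finset.sum_const, Finset.card_range, nsmul_eq_mul, mul_one] at hd
      rw [hζ'prim.geom_sum_eq_zero hp.out.one_lt, zero_sub] at hd
      exact (dvd_neg.1 hd)
    have h10 : ((p : ℕ) : 𝓞 K) ∈ w.asIdeal := Ideal.mem_of_dvd _ h9 h8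
    exact natCast_notMem_of_absNorm_prime' w p hp.out hw hne h10
  have hord : orderOf ((m : ℕ) : ZMod ℓ) = p := orderOf_eq_prime h4 h5
  have hm0 : ((m : ℕ) : ZMod ℓ) ≠ 0 := by
    intro h
    rw [h, zero_pow hp.out.ne_zero] at h4
    exact zero_ne_one h4
  have h11 := ZMod.pow_card_sub_one_eq_one hm0
  rw [← hord]
  exact orderOf_dvd_of_pow_eq_one h11

/-- A `p`-th power modulo `ℓ` is a `p`-th power residue at a prime of norm `ℓ`. -/
theorem ap_isPowResidue_of_unitMod (p : ℕ) (w : HeightOneSpectrum (𝓞 K))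
    (hw : (absNorm w.asIdeal).Prime) (q : ℕ) (hq : ¬ absNorm w.asIdeal ∣ q)
    (h : ∃ u : (ZMod (absNorm w.asIdeal))ˣ, unitMod (absNorm w.asIdeal) (q : ℤ) = u ^ p) :
    IsPowResidue p w ((q : ℕ) : K) := by
  classical
  set ℓ := absNorm w.asIdeal with hℓ
  haveI : Fact ℓ.Prime := ⟨hw⟩
  obtain ⟨u, hu⟩ := h
  have hunit : IsUnit (((q : ℤ) : ℤ) : ZMod ℓ) := by
    rw [isUnit_iff_ne_zero]
    intro h0
    have := (ZMod.intCast_zmod_eq_zero_iff_dvd (q : ℤ) ℓ).1 h0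
    exact hq (Int.natCast_dvd_natCast.1 this)
  have h1 : ((unitMod ℓ (q : ℤ) : (ZMod ℓ)ˣ) : ZMod ℓ) = ((q : ℤ) : ZMod ℓ) := by
    unfold unitMod
    rw [dif_pos hunit]
    exact hunit.unit_spec
  have h2 : ((q : ℤ) : ZMod ℓ) = ((u : ZMod ℓ)) ^ p := by
    rw [← h1, hu, Units.val_pow_eq_pow_val]
  set m : ℕ := (u : ZMod ℓ).val with hm
  have h3 : ((m : ℕ) : ZMod ℓ) = (u : ZMod ℓ) := ZMod.natCast_zmod_val _
  have h4 : ((ℓ : ℕ) : ℤ) ∣ (q : ℤ) - (m : ℤ) ^ p := by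
    rw [← ZMod.intCast_zmod_eq_zero_iff_dvd]
    push_cast
    rw [h3]
    have : ((q : ℕ) : ZMod ℓ) = (u : ZMod ℓ) ^ p := by
      rw [← h2]; push_cast; rfl
    rw [this, sub_self]
  have h5 : ((((q : ℤ) - (m : ℤ) ^ p : ℤ)) : 𝓞 K) ∈ w.asIdeal := ap_intCast_mem_of_dvd w _ h4
  have h6 : ((q : ℕ) : 𝓞 K) - ((m : ℕ) : 𝓞 K) ^ p ∈ w.asIdeal := by
    have : ((q : ℕ) : 𝓞 K) - ((m : ℕ) : 𝓞 K) ^ p = ((((q : ℤ) - (m : ℤ) ^ p : ℤ)) : 𝓞 K) := by
      push_cast; rfl
    rw [this]; exact h5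
  have h7 := isPowResidue_of_mem (p := p) h6
  have h8 : ((((q : ℕ) : 𝓞 K)) : K) = ((q : ℕ) : K) := by simp
  rw [h8] at h7
  exact h7

/-! ### The `T`-degree -/

/-- The sum of the `q`-adic valuations, `q ∈ T`. -/
noncomputable def apDeg (T : Finset ℕ) (r : ℚ) : ℤ := ∑ q ∈ T, padicValRat q r

theorem apDeg_mul (T : Finset ℕ) (hT : ∀ q ∈ T, q.Prime) {r s : ℚ} (hr : r ≠ 0) (hs : s ≠ 0) :
    apDeg T (r * s) = apDeg T r + apDeg T s := by
  unfold apDeg
  rw [← Finset.sum_add_distrib]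
  refine Finset.sum_congr rfl (fun q hq => ?_)
  haveI : Fact q.Prime := ⟨hT q hq⟩
  exact padicValRat.mul hr hs

theorem apDeg_one (T : Finset ℕ) : apDeg T 1 = 0 := by
  unfold apDeg
  simp

theorem apDeg_prime_pow (T : Finset ℕ) (hT : ∀ q ∈ T, q.Prime) (q' : ℕ) (hq' : q'.Prime)
    (hmem : q' ∈ T) (n : ℕ) : apDeg T ((q' : ℚ) ^ n) = n := by
  classical
  unfold apDeg
  have h : ∀ q ∈ T, padicValRat q ((q' : ℚ) ^ n) = if q = q' then (n : ℤ) else 0 := by
    intro q hq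
    haveI : Fact q.Prime := ⟨hT q hq⟩
    haveI : Fact q'.Prime := ⟨hq'⟩
    rw [padicValRat.pow]
    by_cases hqq : q = q'
    · subst hqq
      rw [if_pos rfl, padicValRat.self (hT q hq).one_lt, mul_one]
    · rw [if_neg hqq, padicValRat.of_nat, padicValNat_primes hqq]
      simp
  rw [Finset.sum_congr rfl h, Finset.sum_ite_eq' T q' (fun _ => (n : ℤ)), if_pos hmem]

/-- The homomorphism `x ↦ ∑_{q ∈ T} v_q (N x) mod p`. -/
noncomputable def apPsi (p : ℕ) (T : Finset ℕ) (hT : ∀ q ∈ T, q.Prime) :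
    Kˣ →* Multiplicative (ZMod p) where
  toFun x := Multiplicative.ofAdd ((apDeg T (Algebra.norm ℚ (x : K)) : ℤ) : ZMod p)
  map_one' := by
    simp [apDeg_one]
  map_mul' x y := by
    have hx : Algebra.norm ℚ (x : K) ≠ 0 := by
      rw [Ne, Algebra.norm_eq_zero_iff]; exact x.ne_zero
    have hy : Algebra.norm ℚ (y : K) ≠ 0 := by
      rw [Ne, Algebra.norm_eq_zero_iff]; exact y.ne_zero
    rw [Units.val_mul, map_mul, apDeg_mul T hT hx hy, Int.cast_add, ofAdd_add]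

theorem apPsi_apply (p : ℕ) (T : Finset ℕ) (hT : ∀ q ∈ T, q.Prime) (x : Kˣ) :
    apPsi (K := K) p T hT x =
      Multiplicative.ofAdd ((apDeg T (Algebra.norm ℚ (x : K)) : ℤ) : ZMod p) := rfl

theorem apPsi_prime (p : ℕ) (T : Finset ℕ) (hT : ∀ q ∈ T, q.Prime) (q : ℕ) (hq : q ∈ T)
    (x : Kˣ) (hx : (x : K) = (q : K)) :
    apPsi (K := K) p T hT x = Multiplicative.ofAdd ((Module.finrank ℚ K : ℕ) : ZMod p) := by
  rw [apPsi_apply, hx]
  have h1 : ((q : ℕ) : K) = algebraMap ℚ K (q : ℚ) := by simp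
  rw [h1, Algebra.norm_algebraMap, apDeg_prime_pow T hT q (hT q hq) hq]
  simp

theorem ap_pow_eq_one (p : ℕ) (a : Multiplicative (ZMod p)) : a ^ p = 1 := by
  have : Multiplicative.toAdd (a ^ p) = 0 := by
    rw [toAdd_pow, nsmul_eq_mul, ZMod.natCast_self, zero_mul]
  exact Multiplicative.toAdd.injective (by rw [this]; rfl)

end general

/-! ### The auxiliary prime -/

/-- **[RQ-AUX]** -/
theorem auxPrime : AuxPrimeStatement := by
  intro p hp hp2 T hT
  classical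
  by_cases hTe : T = ∅
  · subst hTe
    obtain ⟨ℓ, hℓ, hlt, hmod⟩ := Nat.exists_prime_gt_modEq_one (k := p) p hp.out.ne_zero
    refine ⟨ℓ, hℓ, ?_, by simp, by omega, by simp⟩
    exact (Nat.modEq_iff_dvd' hℓ.one_le).1 hmod.symm
  · obtain ⟨q₁, hq₁⟩ := Finset.nonempty_iff_ne_empty.2 hTe
    haveI : NeZero p := ⟨hp.out.ne_zero⟩
    haveI : NeZero ((p : ℕ) : ℚ) := ⟨by exact_mod_cast hp.out.ne_zero⟩
    haveI : IsCyclotomicExtension {p} ℚ (CyclotomicField p ℚ) :=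
      CyclotomicField.isCyclotomicExtension p ℚ
    haveI : NumberField (CyclotomicField p ℚ) :=
      IsCyclotomicExtension.numberField {p} ℚ (CyclotomicField p ℚ)
    have hζ : IsPrimitiveRoot (IsCyclotomicExtension.zeta p ℚ (CyclotomicField p ℚ)) p :=
      IsCyclotomicExtension.zeta_spec p ℚ (CyclotomicField p ℚ)
    have hfr : Module.finrank ℚ (CyclotomicField p ℚ) = p - 1 := by
      rw [IsCyclotomicExtension.finrank (CyclotomicField p ℚ)
        (Polynomial.cyclotomic.irreducible_rat hp.out.pos), Nat.totient_prime hp.out]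
    -- the units `q ∈ T`
    have hne : ∀ q ∈ T, ((q : ℕ) : CyclotomicField p ℚ) ≠ 0 := fun q hq =>
      Nat.cast_ne_zero.2 (hT q hq).ne_zero
    let nu : ℕ → (CyclotomicField p ℚ)ˣ := fun n =>
      if h : ((n : ℕ) : CyclotomicField p ℚ) = 0 then 1 else Units.mk0 _ h
    have hnu : ∀ q ∈ T, ((nu q : (CyclotomicField p ℚ)ˣ) : CyclotomicField p ℚ) = (q : ℕ) := by
      intro q hq
      show ((if h : ((q : ℕ) : CyclotomicField p ℚ) = 0 then 1 else Units.mk0 _ h :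
        (CyclotomicField p ℚ)ˣ) : CyclotomicField p ℚ) = (q : ℕ)
      rw [dif_neg (hne q hq)]
      rfl
    set D : Finset (CyclotomicField p ℚ)ˣ := T.image (fun q => nu q * (nu q₁)⁻¹) with hD
    -- independence
    have hψq : ∀ q ∈ T, apPsi p T hT (nu q) = Multiplicative.ofAdd (((p - 1 : ℕ) : ℕ) : ZMod p) := by
      intro q hq
      rw [apPsi_prime p T hT q hq (nu q) (hnu q hq), hfr]
    have hb : nu q₁ ∉ Subgroup.closure (D : Set (CyclotomicField p ℚ)ˣ) ⊔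
        Fermat.Agent.H43.Cft.powSubgroup (CyclotomicField p ℚ) p := by
      intro hmem
      have hle : Subgroup.closure (D : Set (CyclotomicField p ℚ)ˣ) ⊔
          Fermat.Agent.H43.Cft.powSubgroup (CyclotomicField p ℚ) p ≤ (apPsi p T hT).ker := by
        refine sup_le ?_ ?_
        · rw [Subgroup.closure_le]
          intro d hd
          rw [hD, Finset.coe_image] at hd
          obtain ⟨q, hq, rfl⟩ := hd
          show apPsi p T hT (nu q * (nu q₁)⁻¹) = 1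
          rw [map_mul, map_inv, hψq q hq, hψq q₁ hq₁, mul_inv_cancel]
        · rintro y ⟨z, rfl⟩
          show apPsi p T hT (z ^ p) = 1
          rw [map_pow]
          exact ap_pow_eq_one p _
      have h1 : apPsi p T hT (nu q₁) = 1 := hle hmem
      rw [hψq q₁ hq₁] at h1
      have h2 : (((p - 1 : ℕ) : ℕ) : ZMod p) = 0 := Multiplicative.ofAdd.injective h1
      rw [ZMod.natCast_eq_zero_iff] at h2
      have hp1 : 0 < p - 1 := by have := hp.out.two_le; omega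
      have := Nat.le_of_dvd hp1 h2
      omega
    obtain ⟨w, hwP, hN, hwp, hDres, hbn⟩ := exists_aux_prime p (CyclotomicField p ℚ)
      (IsCyclotomicExtension.zeta p ℚ (CyclotomicField p ℚ)) hζ D (nu q₁) hb (max p (T.sup id))
    have hlt : ∀ q ∈ T, q < absNorm w.asIdeal := by
      intro q hq
      have h1 : q ≤ T.sup id := Finset.le_sup (f := id) hq
      have h2 : T.sup id ≤ max p (T.sup id) := le_max_right _ _
      omega
    have hval : ∀ q ∈ T, w.valuation (CyclotomicField p ℚ) ((q : ℕ) : CyclotomicField p ℚ) = 1 := by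
      intro q hq
      have := valuation_intCast_eq_one w (q : ℤ) (by exact_mod_cast (hT q hq).ne_zero) hwP
        (by simpa using hlt q hq)
      simpa using this
    refine ⟨absNorm w.asIdeal, hwP, ap_dvd_absNorm_sub_one p _ hζ w hwP hwp, ?_, hwp, ?_⟩
    · intro hmem
      exact lt_irrefl _ (hlt _ hmem)
    · intro q hq hres
      have hndvd : ¬ absNorm w.asIdeal ∣ q := by
        intro hdvd
        have := Nat.le_of_dvd (hT q hq).pos hdvd
        have := hlt q hq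
        omega
      have h1 : IsPowResidue p w ((q : ℕ) : CyclotomicField p ℚ) :=
        ap_isPowResidue_of_unitMod p w hwP q hndvd hres
      have h2 : IsPowResidue p w ((nu q * (nu q₁)⁻¹ : (CyclotomicField p ℚ)ˣ) :
          CyclotomicField p ℚ) := hDres _ (Finset.mem_image_of_mem _ hq)
      apply hbn
      -- `q₁ = q * (q / q₁)⁻¹`
      have hvd : w.valuation (CyclotomicField p ℚ)
          ((nu q * (nu q₁)⁻¹ : (CyclotomicField p ℚ)ˣ) : CyclotomicField p ℚ) = 1 := by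
        rw [Units.val_mul, Units.val_inv_eq_inv_val, map_mul, map_inv₀, hnu q hq, hnu q₁ hq₁,
          hval q hq, hval q₁ hq₁, inv_one, mul_one]
      have h3 := IsPowResidue.inv hvd hp.out.ne_zero h2
      have h4 := IsPowResidue.mul (hval q hq).le (by rw [map_inv₀, hvd, inv_one]) hp.out.ne_zero
        h1 h3
      have h5 : ((q : ℕ) : CyclotomicField p ℚ) *
          ((nu q * (nu q₁)⁻¹ : (CyclotomicField p ℚ)ˣ) : CyclotomicField p ℚ)⁻¹ =
          ((nu q₁ : (CyclotomicField p ℚ)ˣ) : CyclotomicField p ℚ) := by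
        rw [Units.val_mul, Units.val_inv_eq_inv_val, hnu q hq, hnu q₁ hq₁]
        field_simp [hne q hq, hne q₁ hq₁]
      rw [h5] at h4
      exact h4

end Fermat.Agent.H76.Cft
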