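/-
P-CFT / [TR], row TR-KUM (second seat, helper76): the two halves of
`Fermat.Agent.H25.Recip.TraceKummerStatement`.

* `[KUM-A]` `KummerLocalStatement`: FIELD side.  On `G_E`, `E = localField q`, there is a level
  twisted `ZMod p`-valued 2-cocycle `c` whose exponential `ζ ^ c` has canonical invariant `1 / p`
  (explicitly `c (g, h) = - κ g * i h`, `κ` the Kummer cocycle of a `p`-th root of `q`, `i` the
  unramified character of degree `p`).
* `[KUM-B]` `FrameOfLocalStatement`: the INVERSE dictionary.  A level twisted 2-cocycle on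
  `G_{K_q}` is `locCoch q a` for a FRAME level cocycle `a`.
-/
import Fermat.Agent.H25.Recip.TraceInterfaces

set_option autoImplicit false
set_option synthInstance.maxHeartbeats 400000
set_option linter.style.haveILetI false

namespace Fermat.Agent.H76.Cft

open Fermat.Agent.H13.Cft Fermat.Agent.H78.CFT Fermat.Agent.H81.Local
open Fermat.Agent.H25.Recip ExtCitation

/-- **[KUM-B]** the inverse dictionary LOCAL → FRAME in degree 2: a level function
`c : G_{K_q} × G_{K_q} → ZMod p` satisfying the twisted cocycle identity (twist = the mod `p`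
cyclotomic character) is `locCoch q a` for a FRAME level 2-cocycle `a`. -/
def FrameOfLocalStatement : Prop :=
  ∀ (p : ℕ) [Fact p.Prime] (q : Nat.Primes)
    (c : (locField q).fixingSubgroup × (locField q).fixingSubgroup → ZMod p),
    IsLvlFun₂ (lvlE (locField q)) c →
    (∀ g h j : (locField q).fixingSubgroup,
      c (g * h, j) + c (g, h)
        = ((cycloChar p (g : Qb ≃ₐ[ℚ] Qb) : (ZMod p)ˣ) : ZMod p) * c (h, j) + c (g, h * j)) →
    ∃ a : lvlCochains (pullbackLevelSys (primeLocalToGlobal q))
        (Rep.res (primeLocalToGlobal q) (muRep (cycloChar p))) 2,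
      lvlD (pullbackLevelSys (primeLocalToGlobal q))
        (Rep.res (primeLocalToGlobal q) (muRep (cycloChar p))) 2 a = 0 ∧
      locCoch q a.1 = c

/-- **[KUM-A]** the Kummer cocycle of the unramified class: on `G_E`, `E = localField q`, there
is a level twisted `ZMod p`-valued 2-cocycle `c` with `inv (ζ ^ c) = 1 / p`. -/
def KummerLocalStatement : Prop :=
  ∀ (p : ℕ) [Fact p.Prime] (ζ : Qbˣ), IsPrimitiveRoot (ζ : Qb) p →
    ∀ (q : ℕ) [Fact q.Prime],
      ∃ c : (localField q).fixingSubgroup × (localField q).fixingSubgroup → ZMod p,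
        IsLvlFun₂ (lvlE (localField q)) c ∧
        (∀ g h j : (localField q).fixingSubgroup,
          c (g * h, j) + c (g, h)
            = ((cycloChar p (g : Qb ≃ₐ[ℚ] Qb) : (ZMod p)ˣ) : ZMod p) * c (h, j)
              + c (g, h * j)) ∧
        HasInv q (localField q) (zetaPow ζ c) 1 p

/-- `[TR-KUM]` from its two halves. -/
theorem traceKummer_of (hA : KummerLocalStatement) (hB : FrameOfLocalStatement) :
    TraceKummerStatement := by
  intro p _ ζ hζ q _
  obtain ⟨c, hc1, hc2, hc3⟩ := hA p ζ hζ (q : ℕ)
  obtain ⟨a, ha, hac⟩ := hB p q c hc1 hc2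
  refine ⟨a, ha, ?_⟩
  rw [hac]
  exact hc3

end Fermat.Agent.H76.Cft
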