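/-
P-CFT (helper76): **[GA-FIELD]** the pair classes in U-language from the pair classes in field
language: `bdPairsOfField : PairRealCofStatement → BdPairsUStatement`.
-/
import Fermat.Agent.H76.Cft.FieldDict
import Fermat.Agent.H94.Cft.CycloLevel

set_option autoImplicit false
set_option linter.style.haveILetI false

open Fermat.Agent.H54.Cft Fermat.Agent.H13.Cft Fermat.Agent.H97.Shap Fermat.Agent.H78.CFT
open ExtCitation IsDedekindDomain NumberField
open scoped Pointwise

namespace Fermat.Agent.H76.Cft

/-- The fixing subgroup of a `G_ℚ`-stable field is normal. -/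
theorem fixingSubgroup_normal_of_stable (K : IntermediateField ℚ Qbar)
    (hstab : ∀ (g : GQ) (x : Qbar), x ∈ K → g x ∈ K) : K.fixingSubgroup.Normal := by
  refine ⟨fun n hn g => ?_⟩
  rw [IntermediateField.mem_fixingSubgroup_iff] at hn ⊢
  intro x hx
  have h1 : n (g⁻¹ x) = g⁻¹ x := hn _ (hstab g⁻¹ x hx)
  show g (n (g⁻¹ x)) = x
  rw [h1]
  show (g * g⁻¹) x = x
  rw [mul_inv_cancel]; rfl

/-- The fixing subgroup of a `G_ℚ`-stable field unramified outside `S` is a level. -/
theorem fixingSubgroup_mem_globalLevelSys (S : Finset Nat.Primes) (K : IntermediateField ℚ Qbar)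
    (hK : K.IsUnramifiedOutside S) (hstab : ∀ (g : GQ) (x : Qbar), x ∈ K → g x ∈ K) :
    K.fixingSubgroup ∈ (globalLevelSys S).sets := by
  haveI : FiniteDimensional ℚ K := hK.1
  exact ⟨fixingSubgroup_normal_of_stable K hstab,
    Fermat.Agent.H21.Cft.finiteIndex_fixingSubgroup_adm K, ⟨K, hK.1, le_rfl⟩, hK.2⟩

/-- Places over different primes are not conjugate. -/
theorem not_samePlaceOver_of_ne (K : IntermediateField ℚ Qbar) {A A' : ValuationSubring Qbar}
    {q q' : ℕ} (hq : q.Prime) (hq' : q'.Prime) (hne : q ≠ q') (hA : A.LiesOverPrime q)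
    (hA' : A'.LiesOverPrime q') : ¬ SamePlaceOver K A A' := by
  rintro ⟨g, -, rfl⟩
  have h1 : (g • A).LiesOverPrime q := Fermat.Agent.H96.Cft.liesOverPrime_smul g hA
  have hcop : Nat.Coprime q q' := (Nat.coprime_primes hq hq').mpr hne
  exact Fermat.Agent.H96.Cft.natCast_not_mem_nonunits (g • A) hcop hA' h1

/-- **[GA-FIELD]** -/
theorem bdPairsOfField : BdPairsOfFieldStatement := by
  intro hpair p _ hp2 S hpS hχ N₀ hN₀
  obtain ⟨K₀, hK₀, hK₀N⟩ := Fermat.Agent.H21.Cft.exists_unramified_field_of_level S hN₀
  obtain ⟨K, hle, hK, hstab, hμ, hreal⟩ := hpair p hp2 S hpS K₀ hK₀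
  have hN : K.fixingSubgroup ∈ (globalLevelSys S).sets :=
    fixingSubgroup_mem_globalLevelSys S K hK hstab
  have hU : ∃ N ∈ (globalLevelSys S).sets, N ≤ K.fixingSubgroup := ⟨_, hN, le_rfl⟩
  refine ⟨K.fixingSubgroup, hN, ?_, ?_, ?_⟩
  · rw [← hK₀N]
    exact IntermediateField.fixingSubgroup_antitone hle
  · intro s hs
    apply Fermat.Agent.H94.Cft.cycloChar_eq_one_of_fix
    intro t ht
    exact (IntermediateField.mem_fixingSubgroup_iff _ s).mp hs t (hμ t ht)
  · intro g g' hgg'
    have h12 : ¬ SamePlaceOver K (placeOf (pPrime p) g) (placeOf (pPrime p) g') :=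
      fun h => hgg' ((samePlace_iff (pPrime p) K g g').mpr h)
    obtain ⟨x, hx1, hx2, hx3, hx4⟩ := hreal (placeOf (pPrime p) g) (placeOf (pPrime p) g')
      (placeOf_liesOverPrime (pPrime p) g) (placeOf_liesOverPrime (pPrime p) g') h12
    refine ⟨x, (isSLvl₂_iff S K hU x).mp hx2, (isCocycle₂_iff x).mp hx1, ?_, ?_⟩
    · intro v h hv
      apply isLvlCoboundary₂_of_isLocTrivAt
      apply hx3 v.1 v.2 (placeOf v.1 h) (placeOf_liesOverPrime v.1 h)
      · rcases hv with hv | hv
        · refine not_samePlaceOver_of_ne K (Fact.out : p.Prime) v.1.2 ?_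
            (placeOf_liesOverPrime (pPrime p) g) (placeOf_liesOverPrime v.1 h)
          intro hpv
          apply hv
          apply Subtype.ext
          apply Subtype.ext
          exact hpv.symm
        · by_cases hvp : v = ⟨pPrime p, hpS⟩
          · subst hvp
            exact fun hs => hv.1 ((samePlace_iff (pPrime p) K g h).mpr hs)
          · refine not_samePlaceOver_of_ne K (Fact.out : p.Prime) v.1.2 ?_
              (placeOf_liesOverPrime (pPrime p) g) (placeOf_liesOverPrime v.1 h)
            intro hpv
            apply hvp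
            apply Subtype.ext
            apply Subtype.ext
            exact hpv.symm
      · rcases hv with hv | hv
        · refine not_samePlaceOver_of_ne K (Fact.out : p.Prime) v.1.2 ?_
            (placeOf_liesOverPrime (pPrime p) g') (placeOf_liesOverPrime v.1 h)
          intro hpv
          apply hv
          apply Subtype.ext
          apply Subtype.ext
          exact hpv.symm
        · by_cases hvp : v = ⟨pPrime p, hpS⟩
          · subst hvp
            exact fun hs => hv.2 ((samePlace_iff (pPrime p) K g' h).mpr hs)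
          · refine not_samePlaceOver_of_ne K (Fact.out : p.Prime) v.1.2 ?_
              (placeOf_liesOverPrime (pPrime p) g') (placeOf_liesOverPrime v.1 h)
            intro hpv
            apply hvp
            apply Subtype.ext
            apply Subtype.ext
            exact hpv.symm
    · rintro ⟨h1, h2⟩
      apply hx4
      exact ⟨isLocTrivAt_of_isLvlCoboundary₂ (pPrime p) K g _ x h1,
        isLocTrivAt_of_isLvlCoboundary₂ (pPrime p) K g' _ x h2⟩

end Fermat.Agent.H76.Cft
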