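/-
P-CFT (helper76): **[GC-SHA-FIELD]** `Ш²` in U-language from `Ш²` in field language:
`shaUOfField : Sha2BoundElemStatement → ShaUStatement`.
-/
import Fermat.Agent.H76.Cft.FieldDict

set_option autoImplicit false

open Fermat.Agent.H54.Cft Fermat.Agent.H13.Cft Fermat.Agent.H97.Shap Fermat.Agent.H78.CFT
open ExtCitation IsDedekindDomain NumberField
open scoped Pointwise

namespace Fermat.Agent.H76.Cft

/-- **[GC-SHA-FIELD]** -/
theorem shaUOfField : ShaUOfFieldStatement := by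
  intro hsha p _ hp2 S hpS hχ L _ hL hμ hT hU
  obtain ⟨R', hcard, hR'⟩ := hsha p hp2 S hpS L hL hμ hT
  refine ⟨R', hcard, ?_⟩
  intro c hc1 hc2 hloc
  obtain ⟨r', hr', hcoh⟩ := hR' c ((isCocycle₂_iff c).mpr hc2)
    ((isSLvl₂_iff S L hU c).mpr hc1) (fun q hq A hA => by
      obtain ⟨g, rfl⟩ := exists_placeOf_eq q hA
      exact isLocTrivAt_of_isLvlCoboundary₂ q L g _ c (hloc ⟨q, hq⟩ g))
  exact ⟨r', hr', (isSCohomologous₂_iff S L hU c r').mp hcoh⟩

end Fermat.Agent.H76.Cft
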